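import Fermat.Agent.S24.Defs
import Fermat.Agent.S24.FFFinite
import Fermat.Agent.S24.Alg.Basic
import Fermat.Agent.S24.H117.LocalThm
import Fermat.Agent.S24.H504.FF1
import Mathlib.RingTheory.Norm.Transitivity
import Mathlib.FieldTheory.IsAlgClosed.AlgebraicClosure
import Mathlib.FieldTheory.PrimitiveElement

/-!
# S24 / ALG / FF3 — principal divisors have degree zero (norm route, Dedekind-free)

Let `F / K(j)` be finite of degree `n = #X` and assume local embedding data (`LocalData`) at
every point `j = a` (`a : K`) and at `j = ∞`.  Then for every `f ≠ 0` in `F` the divisor of `f`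
has degree `0`.

Route: for each point `P` of the `j`-line, with embeddings `σ_x` (`x : X`) and ramification
parameter `m`,
`m * ∑_{v | P} ord_v f = ∑_x ord_z (σ_x f) = ord_z (∏_x σ_x f) = ord_z (σ (N f))`,
where `N f ∈ K(j)` is the norm; writing `N f = c ∏ (j - b_i) / ∏ (j - b'_i)` the right-hand
side is `m * (#{i | b_i = a} - #{i | b'_i = a})` at `P = a` and `- m * (#b - #b')` at `P = ∞`.
Summing over all points gives `0`.

Inputs: helper117 (`H117`, local theorem LT1–LT3), helper504 (`H504`, fundamental inequality),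
helper804 (`FF`), helper984 (`Alg/Basic`).  The norm-product identity follows helper144's
`loc_norm_eq_prod`.
-/

set_option autoImplicit false

noncomputable section

open AlgebraicCurve IntermediateField Polynomial

namespace Fermat.Agent.S24.H204

/-! ### Orders of products of Laurent series -/

section Laurent

variable {C : Type*} [Field C]

theorem order_mul' {A B : LaurentSeries C} (hA : A ≠ 0) (hB : B ≠ 0) :
    (A * B).order = A.order + B.order :=
  HahnSeries.order_mul_of_ne_zero
    (mul_ne_zero (HahnSeries.leadingCoeff_ne_zero.mpr hA) (HahnSeries.leadingCoeff_ne_zero.mpr hB))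

theorem order_finset_prod {ι : Type*} (s : Finset ι) (f : ι → LaurentSeries C)
    (hf : ∀ i ∈ s, f i ≠ 0) : (∏ i ∈ s, f i).order = ∑ i ∈ s, (f i).order := by
  classical
  induction s using Finset.induction_on with
  | empty => simp
  | insert a s ha ih =>
    have h1 : f a ≠ 0 := hf a (Finset.mem_insert_self a s)
    have h2 : ∀ i ∈ s, f i ≠ 0 := fun i hi => hf i (Finset.mem_insert_of_mem hi)
    rw [Finset.prod_insert ha, Finset.sum_insert ha,
      order_mul' h1 (Finset.prod_ne_zero_iff.mpr h2), ih h2]

theorem order_multiset_prod (s : Multiset (LaurentSeries C))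
    (hs : ∀ A ∈ s, A ≠ 0) : s.prod.order = (s.map HahnSeries.order).sum := by
  induction s using Multiset.induction_on with
  | empty => simp
  | cons a s ih =>
    have h1 : a ≠ 0 := hs a (Multiset.mem_cons_self a s)
    have h2 : ∀ A ∈ s, A ≠ 0 := fun A hA => hs A (Multiset.mem_cons_of_mem hA)
    have h3 : s.prod ≠ 0 := Multiset.prod_ne_zero (fun h => h2 0 h rfl)
    rw [Multiset.prod_cons, Multiset.map_cons, Multiset.sum_cons, order_mul' h1 h3, ih h2]

theorem order_C_add_of_pos {A : LaurentSeries C} (hA : 0 < A.order) {c : C} (hc : c ≠ 0) :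
    (A + HahnSeries.C c).order = 0 := by
  have hA0 : A ≠ 0 := by
    rintro rfl
    simp at hA
  have hC0 : (HahnSeries.C c : LaurentSeries C) ≠ 0 := HahnSeries.C_ne_zero hc
  have hCo : (HahnSeries.C c : LaurentSeries C).orderTop = ((0 : ℤ) : WithTop ℤ) := by
    rw [← HahnSeries.order_eq_orderTop_of_ne_zero hC0, HahnSeries.order_C]
  have hlt : (HahnSeries.C c : LaurentSeries C).orderTop < A.orderTop := by
    rw [hCo, ← HahnSeries.order_eq_orderTop_of_ne_zero hA0]
    exact_mod_cast hA
  have h := HahnSeries.orderTop_add_eq_left hlt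
  rw [add_comm] at h
  have hne : A + HahnSeries.C c ≠ 0 := by
    intro h0
    rw [h0, HahnSeries.orderTop_zero, hCo] at h
    exact WithTop.top_ne_coe h
  rw [← HahnSeries.order_eq_orderTop_of_ne_zero hne, hCo] at h
  exact_mod_cast h

theorem order_add_C_of_neg {A : LaurentSeries C} (hA : A.order < 0) (c : C) :
    (A + HahnSeries.C c).order = A.order := by
  have hA0 : A ≠ 0 := by
    rintro rfl
    simp at hA
  rcases eq_or_ne c 0 with rfl | hc
  · simp
  have hC0 : (HahnSeries.C c : LaurentSeries C) ≠ 0 := HahnSeries.C_ne_zero hc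
  have hCo : (HahnSeries.C c : LaurentSeries C).orderTop = ((0 : ℤ) : WithTop ℤ) := by
    rw [← HahnSeries.order_eq_orderTop_of_ne_zero hC0, HahnSeries.order_C]
  have hlt : A.orderTop < (HahnSeries.C c : LaurentSeries C).orderTop := by
    rw [hCo, ← HahnSeries.order_eq_orderTop_of_ne_zero hA0]
    exact_mod_cast hA
  have h := HahnSeries.orderTop_add_eq_left hlt
  have hne : A + HahnSeries.C c ≠ 0 := by
    intro h0
    rw [h0, HahnSeries.orderTop_zero, ← HahnSeries.order_eq_orderTop_of_ne_zero hA0] at h
    exact WithTop.top_ne_coe h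
  rw [← HahnSeries.order_eq_orderTop_of_ne_zero hne,
    ← HahnSeries.order_eq_orderTop_of_ne_zero hA0] at h
  exact_mod_cast h

end Laurent

/-! ### The norm is the product of the conjugates (after helper144) -/

section Norm

variable {F₀ F E : Type*} [Field F₀] [Field F] [Algebra F₀ F] [FiniteDimensional F₀ F]
  [Algebra.IsSeparable F₀ F] [Field E]
variable {X : Type*} [Fintype X]

theorem norm_eq_prod_of_embeddings (σ : X → (F →+* E)) (hinj : Function.Injective σ)
    (hagree : ∀ (x y : X) (c : F₀), σ x (algebraMap F₀ F c) = σ y (algebraMap F₀ F c))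
    (hcard : Module.finrank F₀ F = Nat.card X) (f : F) (x₀ : X) :
    σ x₀ (algebraMap F₀ F (Algebra.norm F₀ f)) = ∏ x, σ x f := by
  classical
  let φ : F₀ →+* AlgebraicClosure E :=
    (algebraMap E (AlgebraicClosure E)).comp ((σ x₀).comp (algebraMap F₀ F))
  let _ : Algebra F₀ (AlgebraicClosure E) := φ.toAlgebra
  have hφ : ∀ c : F₀, algebraMap F₀ (AlgebraicClosure E) c
      = algebraMap E (AlgebraicClosure E) (σ x₀ (algebraMap F₀ F c)) := fun c => rfl
  let ψ : X → (F →ₐ[F₀] AlgebraicClosure E) := fun x =>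
    { ((algebraMap E (AlgebraicClosure E)).comp (σ x)) with
      commutes' := fun c => by
        change algebraMap E (AlgebraicClosure E) (σ x (algebraMap F₀ F c))
          = algebraMap F₀ (AlgebraicClosure E) c
        rw [hφ, hagree x x₀] }
  have hψ_apply : ∀ x f, ψ x f = algebraMap E (AlgebraicClosure E) (σ x f) := fun _ _ => rfl
  have hψinj : Function.Injective ψ := by
    intro x y hxy
    apply hinj
    ext f
    have h := congrArg (fun τ : F →ₐ[F₀] AlgebraicClosure E => τ f) hxy
    exact (algebraMap E (AlgebraicClosure E)).injective h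
  have hbij : Function.Bijective ψ := by
    apply hψinj.bijective_of_nat_card_le
    rw [← hcard, ← AlgHom.card F₀ F (AlgebraicClosure E), Fintype.card_eq_nat_card]
  apply (algebraMap E (AlgebraicClosure E)).injective
  rw [← hφ, Algebra.norm_eq_prod_embeddings F₀ (AlgebraicClosure E) f, map_prod]
  exact (Fintype.prod_bijective ψ hbij _ _ (fun x => hψ_apply x f)).symm

end Norm

/-! ### The local sum formula -/

section Local

variable {K F : Type*} [Field K] [Field F] [Algebra K F]
variable {C : Type*} [Field C] {X : Type*}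
variable {t : F} (L : LocalData K F C X t)

theorem induces_placeOf (x : X) : H504.Induces (L.σ x) (H117.placeOf L x) :=
  fun _ => Iff.rfl

theorem induces_iff (x : X) (v : Place K F) :
    H504.Induces (L.σ x) v ↔ H117.placeOf L x = v :=
  ⟨fun h => (induces_placeOf L x).unique h, fun h => h ▸ induces_placeOf L x⟩

theorem isAlgebraic_of_le (E : IntermediateField K F) (hE : E ≤ K⟮t⟯)
    [FiniteDimensional E F] : Algebra.IsAlgebraic K⟮t⟯ F := by
  refine ⟨fun f => ?_⟩
  obtain ⟨p, hp0, hp⟩ := (Algebra.IsAlgebraic.isAlgebraic (R := E) f)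
  refine ⟨p.map (IntermediateField.inclusion hE).toRingHom, ?_, ?_⟩
  · exact (Polynomial.map_ne_zero_iff (IntermediateField.inclusion hE).toRingHom.injective).mpr hp0
  · rw [Polynomial.aeval_def, Polynomial.eval₂_map]
    rw [Polynomial.aeval_def] at hp
    exact hp

variable [IsAlgClosed K] [CharZero K] [CharZero C] [Fintype X] [DecidableEq (Place K F)]
variable (E : IntermediateField K F) (hE : E ≤ K⟮t⟯) [FiniteDimensional E F]
  (hrank : Module.finrank E F = Nat.card X)

omit [CharZero K] in
include hE in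
theorem card_fibre_le (v : Place K F) (hv : 0 < v.ord t) :
    ((Finset.univ.filter (fun x => H117.placeOf L x = v)).card : ℤ) ≤ v.ord t := by
  have := isAlgebraic_of_le (t := t) E hE
  have h := H504.LocalData.card_fibre_le L v hv
  have e : {x : X // H504.Induces (L.σ x) v} ≃ {x : X // H117.placeOf L x = v} :=
    Equiv.subtypeEquivRight (fun x => induces_iff L x v)
  rw [Nat.card_congr e, Nat.card_eq_fintype_card, Fintype.card_subtype] at h
  exact h

include hE hrank in
theorem card_fibre_eq (s : Finset (Place K F)) (hs : ∀ v, v ∈ s ↔ 0 < v.ord t)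
    (v : Place K F) (hv : v ∈ s) :
    ((Finset.univ.filter (fun x => H117.placeOf L x = v)).card : ℤ) = v.ord t := by
  have := isAlgebraic_of_le (t := t) E hE
  have hle : ∀ w ∈ s,
      ((Finset.univ.filter (fun x => H117.placeOf L x = w)).card : ℤ) ≤ w.ord t :=
    fun w hw => card_fibre_le L E hE w ((hs w).mp hw)
  have hmaps : ∀ x ∈ (Finset.univ : Finset X), H117.placeOf L x ∈ s :=
    fun x _ => (hs _).mpr (H117.ord_t_pos L x)
  have hcard := Finset.card_eq_sum_card_fiberwise hmaps
  have hsum := (H117.localThm L E hE hrank s hs (H504.LocalData.card_le_sum_ord L s hs)).2.2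
  have heq : ∑ w ∈ s, ((Finset.univ.filter (fun x => H117.placeOf L x = w)).card : ℤ)
      = ∑ w ∈ s, w.ord t := by
    rw [hsum, Nat.card_eq_fintype_card, ← Finset.card_univ, hcard]
    push_cast
    rfl
  exact (Finset.sum_eq_sum_iff_of_le hle).mp heq v hv

include hE hrank in
theorem sum_order_fibre (s : Finset (Place K F)) (hs : ∀ v, v ∈ s ↔ 0 < v.ord t)
    (v : Place K F) (hv : v ∈ s) (h : F) :
    ∑ x ∈ Finset.univ.filter (fun x => H117.placeOf L x = v), (L.σ x h).order
      = L.m * v.ord h := by
  have hpos : 0 < v.ord t := (hs v).mp hv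
  have hcard := card_fibre_eq L E hE hrank s hs v hv
  have key : v.ord t * ∑ x ∈ Finset.univ.filter (fun x => H117.placeOf L x = v),
      (L.σ x h).order = v.ord t * (L.m * v.ord h) := by
    rw [Finset.mul_sum]
    have : ∀ x ∈ Finset.univ.filter (fun x => H117.placeOf L x = v),
        v.ord t * (L.σ x h).order = L.m * v.ord h := by
      intro x hx
      have hx' : H117.placeOf L x = v := (Finset.mem_filter.mp hx).2
      have h1 := H117.order_eq L x h
      have h2 := H117.mult_mul_ord_t L x
      rw [hx'] at h1 h2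
      rw [h1, ← h2]
      ring
    rw [Finset.sum_congr rfl this, Finset.sum_const, nsmul_eq_mul, hcard]
  exact mul_left_cancel₀ hpos.ne' key

include hE hrank in
/-- **Local sum formula.** `∑_x ord_z (σ_x h) = m * ∑_{v | t} ord_v h`. -/
theorem sum_order_eq (s : Finset (Place K F)) (hs : ∀ v, v ∈ s ↔ 0 < v.ord t) (h : F) :
    ∑ x, (L.σ x h).order = L.m * ∑ v ∈ s, v.ord h := by
  have hmaps : ∀ x ∈ (Finset.univ : Finset X), H117.placeOf L x ∈ s :=
    fun x _ => (hs _).mpr (H117.ord_t_pos L x)
  rw [← Finset.sum_fiberwise_of_maps_to hmaps, Finset.mul_sum]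
  exact Finset.sum_congr rfl fun v hv => sum_order_fibre L E hE hrank s hs v hv h

end Local

/-! ### Orders of rational functions of `j` under the embeddings -/

section Rational

variable {K F : Type*} [Field K] [Field F] [Algebra K F]
variable {C : Type*} [Field C] {X : Type*}
variable (j : F)

theorem order_lin_fin [DecidableEq K] {a : K} (L : LocalData K F C X (j - algebraMap K F a)) (b : K) (x : X) :
    (L.σ x (j - algebraMap K F b)).order = if b = a then (L.m : ℤ) else 0 := by
  split_ifs with hb
  · subst hb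
    exact L.σ_t_order x
  · have h1 : j - algebraMap K F b = (j - algebraMap K F a) + algebraMap K F (a - b) := by
      rw [map_sub]; ring
    rw [h1, map_add, L.σ_const]
    apply order_C_add_of_pos
    · rw [L.σ_t_order]
      exact_mod_cast L.m_pos
    · rw [Ne, map_eq_zero, sub_eq_zero]
      exact fun h => hb h.symm

theorem order_j_inf (L : LocalData K F C X j⁻¹) (x : X) :
    (L.σ x j).order = -(L.m : ℤ) := by
  have h := L.σ_t_order x
  rw [map_inv₀, H504.ls_order_inv] at h
  omega

theorem order_lin_inf (L : LocalData K F C X j⁻¹) (b : K) (x : X) :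
    (L.σ x (j - algebraMap K F b)).order = -(L.m : ℤ) := by
  have h1 : j - algebraMap K F b = j + algebraMap K F (-b) := by
    rw [map_neg]; ring
  rw [h1, map_add, L.σ_const, order_add_C_of_neg, order_j_inf]
  rw [order_j_inf]
  have := L.m_pos
  omega

variable [IsAlgClosed K]

theorem aeval_eq_prod_roots (p : K[X]) :
    aeval j p = algebraMap K F p.leadingCoeff *
      (p.roots.map (fun b => j - algebraMap K F b)).prod := by
  conv_lhs => rw [(IsAlgClosed.splits p).eq_prod_roots]
  rw [map_mul, aeval_C, map_multiset_prod, Multiset.map_map]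
  congr 2
  apply Multiset.map_congr rfl
  intro b _
  simp

omit [IsAlgClosed K] in
theorem sigma_aeval_ne_zero {t : F} (L : LocalData K F C X t) (x : X) {p : K[X]} (hp : p ≠ 0)
    (hj : Transcendental K j) : L.σ x (aeval j p) ≠ 0 := by
  rw [Ne, map_eq_zero]
  exact fun h => hp ((transcendental_iff.mp hj) p h)

theorem order_aeval_fin [DecidableEq K] {a : K} (L : LocalData K F C X (j - algebraMap K F a)) (x : X)
    {p : K[X]} (hp : p ≠ 0) :
    (L.σ x (aeval j p)).order = L.m * (p.roots.count a : ℤ) := by
  rw [aeval_eq_prod_roots, map_mul, L.σ_const, map_multiset_prod, Multiset.map_map]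
  have hlc : (HahnSeries.C (L.ι p.leadingCoeff) : LaurentSeries C) ≠ 0 :=
    HahnSeries.C_ne_zero (by rw [Ne, map_eq_zero]; exact leadingCoeff_ne_zero.mpr hp)
  have hne : ∀ A ∈ p.roots.map ((L.σ x) ∘ fun b => j - algebraMap K F b), A ≠ 0 := by
    intro A hA
    obtain ⟨b, -, rfl⟩ := Multiset.mem_map.mp hA
    intro h0
    have h1 := order_lin_fin j L b x
    simp only [Function.comp_apply] at h0
    rw [h0] at h1
    split_ifs at h1 with hb
    · have := L.m_pos
      simp at h1
      omega
    · have h2 : j - algebraMap K F b = 0 := by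
        rwa [map_eq_zero] at h0
      have h3 : j - algebraMap K F a = algebraMap K F (b - a) := by
        rw [map_sub, ← sub_eq_zero.mp h2]
      have h4 := L.σ_t_order x
      have h5 : L.σ x (j - algebraMap K F a) = HahnSeries.C (L.ι (b - a)) :=
        (congrArg (L.σ x) h3).trans (L.σ_const x _)
      rw [h5, HahnSeries.order_C] at h4
      have := L.m_pos
      omega
  rw [order_mul' hlc (Multiset.prod_ne_zero (fun h => hne 0 h rfl)), HahnSeries.order_C,
    zero_add, order_multiset_prod _ hne, Multiset.map_map]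
  have : (p.roots.map (HahnSeries.order ∘ (L.σ x) ∘ fun b => j - algebraMap K F b))
      = p.roots.map (fun b => if b = a then (L.m : ℤ) else 0) :=
    Multiset.map_congr rfl fun b _ => order_lin_fin j L b x
  rw [this]
  clear hne this
  induction p.roots using Multiset.induction_on with
  | empty => simp
  | cons b s ih =>
    rw [Multiset.map_cons, Multiset.sum_cons, ih, Multiset.count_cons]
    split_ifs with h1 h2 h2
    · push_cast; ring
    · exact absurd h1.symm h2
    · exact absurd h2.symm h1
    · push_cast; ring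

theorem order_aeval_inf (L : LocalData K F C X j⁻¹) (x : X) {p : K[X]} (hp : p ≠ 0) :
    (L.σ x (aeval j p)).order = -(L.m : ℤ) * (Multiset.card p.roots : ℤ) := by
  rw [aeval_eq_prod_roots, map_mul, L.σ_const, map_multiset_prod, Multiset.map_map]
  have hlc : (HahnSeries.C (L.ι p.leadingCoeff) : LaurentSeries C) ≠ 0 :=
    HahnSeries.C_ne_zero (by rw [Ne, map_eq_zero]; exact leadingCoeff_ne_zero.mpr hp)
  have hne : ∀ A ∈ p.roots.map ((L.σ x) ∘ fun b => j - algebraMap K F b), A ≠ 0 := by
    intro A hA
    obtain ⟨b, -, rfl⟩ := Multiset.mem_map.mp hA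
    intro h0
    have h1 := order_lin_inf j L b x
    simp only [Function.comp_apply] at h0
    rw [h0] at h1
    have := L.m_pos
    simp at h1
    omega
  rw [order_mul' hlc (Multiset.prod_ne_zero (fun h => hne 0 h rfl)), HahnSeries.order_C,
    zero_add, order_multiset_prod _ hne, Multiset.map_map]
  have : (p.roots.map (HahnSeries.order ∘ (L.σ x) ∘ fun b => j - algebraMap K F b))
      = p.roots.map (fun _ => -(L.m : ℤ)) :=
    Multiset.map_congr rfl fun b _ => order_lin_inf j L b x
  rw [this, Multiset.map_const', Multiset.sum_replicate, nsmul_eq_mul]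
  ring

end Rational

/-! ### Fibre sums via the norm -/

section Fibre

variable {K F : Type*} [Field K] [Field F] [Algebra K F] [IsAlgClosed K] [CharZero K]
variable {C : Type*} [Field C] [CharZero C] {X : Type*} [Fintype X]
variable (j : F) [FiniteDimensional K⟮j⟯ F]
  (hrank : Module.finrank K⟮j⟯ F = Nat.card X)

include hrank in
/-- `m * ∑_{v | t} ord_v h = ord_z (σ (N h))`. -/
theorem mul_sum_ord_eq_order_norm {t : F} (L : LocalData K F C X t) (hE : K⟮j⟯ ≤ K⟮t⟯)
    (s : Finset (Place K F)) (hs : ∀ v, v ∈ s ↔ 0 < v.ord t) (h : F) (hh : h ≠ 0) (x₀ : X) :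
    (L.m : ℤ) * ∑ v ∈ s, v.ord h
      = (L.σ x₀ (algebraMap K⟮j⟯ F (Algebra.norm K⟮j⟯ h))).order := by
  classical
  have hagree : ∀ (x y : X) (c : K⟮j⟯),
      L.σ x (algebraMap K⟮j⟯ F c) = L.σ y (algebraMap K⟮j⟯ F c) :=
    fun x y c => H117.σ_eq_of_mem_adjoin L x y (hE c.2)
  rw [norm_eq_prod_of_embeddings L.σ L.σ_inj hagree hrank h x₀,
    order_finset_prod _ _ (fun x _ => (map_ne_zero (L.σ x)).mpr hh),
    sum_order_eq L K⟮j⟯ hE hrank s hs h]

variable (hj : Transcendental K j)

include hrank hj in
theorem fibre_sum_fin {a : K} (L : LocalData K F C X (j - algebraMap K F a))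
    (s : Finset (Place K F)) (hs : ∀ v, v ∈ s ↔ 0 < v.ord (j - algebraMap K F a))
    (h : F) (hh : h ≠ 0) (p q : K[X]) (hp : p ≠ 0) (hq : q ≠ 0)
    (hN : algebraMap K⟮j⟯ F (Algebra.norm K⟮j⟯ h) = aeval j p / aeval j q) [DecidableEq K] :
    ∑ v ∈ s, v.ord h = (p.roots.count a : ℤ) - q.roots.count a := by
  have hpos : 0 < Nat.card X := hrank ▸ Module.finrank_pos
  obtain ⟨x₀⟩ := (Nat.card_pos_iff.mp hpos).1
  have hE : K⟮j⟯ ≤ K⟮j - algebraMap K F a⟯ := (adjoin_sub_algebraMap K j a).ge
  have h1 := mul_sum_ord_eq_order_norm j hrank L hE s hs h hh x₀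
  rw [hN, map_div₀, div_eq_mul_inv,
    order_mul' (sigma_aeval_ne_zero j L x₀ hp hj) (inv_ne_zero (sigma_aeval_ne_zero j L x₀ hq hj)),
    H504.ls_order_inv, order_aeval_fin j L x₀ hp, order_aeval_fin j L x₀ hq] at h1
  have hm : (L.m : ℤ) ≠ 0 := by exact_mod_cast L.m_pos.ne'
  apply mul_left_cancel₀ hm
  rw [h1]
  ring

include hrank hj in
theorem fibre_sum_inf (L : LocalData K F C X j⁻¹)
    (s : Finset (Place K F)) (hs : ∀ v, v ∈ s ↔ 0 < v.ord j⁻¹)
    (h : F) (hh : h ≠ 0) (p q : K[X]) (hp : p ≠ 0) (hq : q ≠ 0)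
    (hN : algebraMap K⟮j⟯ F (Algebra.norm K⟮j⟯ h) = aeval j p / aeval j q) :
    ∑ v ∈ s, v.ord h = -((Multiset.card p.roots : ℤ) - Multiset.card q.roots) := by
  have hpos : 0 < Nat.card X := hrank ▸ Module.finrank_pos
  obtain ⟨x₀⟩ := (Nat.card_pos_iff.mp hpos).1
  have hE : K⟮j⟯ ≤ K⟮j⁻¹⟯ := (adjoin_inv K j).ge
  have h1 := mul_sum_ord_eq_order_norm j hrank L hE s hs h hh x₀
  rw [hN, map_div₀, div_eq_mul_inv,
    order_mul' (sigma_aeval_ne_zero j L x₀ hp hj) (inv_ne_zero (sigma_aeval_ne_zero j L x₀ hq hj)),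
    H504.ls_order_inv, order_aeval_inf j L x₀ hp, order_aeval_inf j L x₀ hq] at h1
  have hm : (L.m : ℤ) ≠ 0 := by exact_mod_cast L.m_pos.ne'
  apply mul_left_cancel₀ hm
  rw [h1]
  ring

end Fibre

/-! ### Global assembly -/

section Global

variable {K F : Type*} [Field K] [Field F] [Algebra K F] [IsAlgClosed K] [CharZero K]
variable {C : Type*} [Field C] [CharZero C] {X : Type*} [Finite X]

theorem sum_count_eq_card {α : Type*} [DecidableEq α] (m : Multiset α) (A : Finset α)
    (hA : m.toFinset ⊆ A) : ∑ a ∈ A, (m.count a : ℤ) = Multiset.card m := by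
  rw [← Finset.sum_subset hA (fun a _ ha => by
    rw [Multiset.mem_toFinset] at ha
    rw [Multiset.count_eq_zero_of_notMem ha, Nat.cast_zero])]
  exact_mod_cast Multiset.toFinset_sum_count_eq m

/-- **FF3 (norm route).**  If `F / K(j)` is finite of degree `#X` and there is local embedding
data at every point of the `j`-line, then every principal divisor of `F` has degree zero. -/
theorem degree_principal_of_localData (j : F) (hj : Transcendental K j)
    [FiniteDimensional K⟮j⟯ F]
    (hrank : Module.finrank K⟮j⟯ F = Nat.card X)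
    (dataFin : ∀ a : K, LocalData K F C X (j - algebraMap K F a))
    (dataInf : LocalData K F C X j⁻¹)
    (f : F) (hf : f ≠ 0) (D : Divisor K F) (hD : ∀ v : Place K F, D v = v.ord f) :
    Divisor.degree D = 0 := by
  classical
  have : Fintype X := Fintype.ofFinite X
  -- the degree is the sum of the orders
  have hdeg : Divisor.degree D = ∑ v ∈ D.support, v.ord f := by
    rw [Divisor.degree, Finsupp.liftAddHom_apply, Finsupp.sum]
    refine Finset.sum_congr rfl fun v _ => ?_
    rw [AddMonoidHom.coe_mulRight, FF.deg_eq_one v hj, hD v]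
    simp
  -- the norm as a quotient of polynomials in `j`
  obtain ⟨p, q, hN'⟩ := (mem_adjoin_simple_iff K _).mp (Algebra.norm K⟮j⟯ f).2
  have hN : algebraMap K⟮j⟯ F (Algebra.norm K⟮j⟯ f) = aeval j p / aeval j q := hN'
  have hN0 : algebraMap K⟮j⟯ F (Algebra.norm K⟮j⟯ f) ≠ 0 := by
    rw [Ne, map_eq_zero, Algebra.norm_eq_zero_iff]
    exact hf
  have hp : p ≠ 0 := by
    rintro rfl
    rw [hN] at hN0
    simp at hN0
  have hq : q ≠ 0 := by
    rintro rfl
    rw [hN] at hN0
    simp at hN0
  -- the places over the points of the `j`-line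
  have hEfin : ∀ a : K, K⟮j⟯ ≤ K⟮j - algebraMap K F a⟯ :=
    fun a => (adjoin_sub_algebraMap K j a).ge
  have hEinf : K⟮j⟯ ≤ K⟮j⁻¹⟯ := (adjoin_inv K j).ge
  have hfinFin : ∀ a : K, {v : Place K F | 0 < v.ord (j - algebraMap K F a)}.Finite :=
    fun a => H117.finite_places_over (dataFin a) K⟮j⟯ (hEfin a) hrank
  have hfinInf : {v : Place K F | 0 < v.ord j⁻¹}.Finite :=
    H117.finite_places_over dataInf K⟮j⟯ hEinf hrank
  set sFin : K → Finset (Place K F) := fun a => (hfinFin a).toFinset with hsFin_def
  set sInf : Finset (Place K F) := hfinInf.toFinset with hsInf_def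
  have hsFin : ∀ a v, v ∈ sFin a ↔ 0 < v.ord (j - algebraMap K F a) := fun a v => by
    simp [hsFin_def]
  have hsInf : ∀ v, v ∈ sInf ↔ 0 < v.ord j⁻¹ := fun v => by
    simp [hsInf_def]
  -- the point below a place
  have : Algebra.IsAlgebraic K⟮j⟯ F := Algebra.IsAlgebraic.of_finite _ _
  let pt : Place K F → K := fun v =>
    if h : ∃ a : K, 0 < v.ord (j - algebraMap K F a) then h.choose else 0
  set A : Finset K := p.roots.toFinset ∪ q.roots.toFinset ∪ D.support.image pt with hA_def
  set T : Finset (Place K F) := A.biUnion sFin ∪ sInf with hT_def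
  have hsub : D.support ⊆ T := by
    intro v hv
    rcases lt_or_ge (v.ord j) 0 with hneg | hnn
    · refine Finset.mem_union_right _ ((hsInf v).mpr ?_)
      rw [v.ord_inv]
      omega
    · have hex : ∃ a : K, 0 < v.ord (j - algebraMap K F a) := FF.exists_ord_sub_pos v j hnn
      refine Finset.mem_union_left _ (Finset.mem_biUnion.mpr ⟨pt v, ?_, ?_⟩)
      · exact Finset.mem_union_right _ (Finset.mem_image_of_mem pt hv)
      · rw [hsFin]
        show 0 < v.ord (j - algebraMap K F (dite _ _ _))
        rw [dif_pos hex]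
        exact hex.choose_spec
  have hdisj1 : Disjoint (A.biUnion sFin) sInf := by
    rw [Finset.disjoint_left]
    intro v hv hv'
    obtain ⟨a, -, hva⟩ := Finset.mem_biUnion.mp hv
    exact not_pos_ord_sub_of_pos_ord_inv v j a ((hsInf v).mp hv') ((hsFin a v).mp hva)
  have hdisj2 : (A : Set K).PairwiseDisjoint sFin := by
    intro a _ b _ hab
    rw [Function.onFun, Finset.disjoint_left]
    intro v hva hvb
    exact hab (point_unique v j ((hsFin a v).mp hva) ((hsFin b v).mp hvb))
  have hsumT : ∑ v ∈ D.support, v.ord f = ∑ v ∈ T, v.ord f := by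
    refine Finset.sum_subset hsub fun v _ hv => ?_
    rw [← hD v]
    exact Finsupp.notMem_support_iff.mp hv
  rw [hdeg, hsumT, hT_def, Finset.sum_union hdisj1, Finset.sum_biUnion hdisj2,
    fibre_sum_inf j hrank hj dataInf sInf hsInf f hf p q hp hq hN,
    Finset.sum_congr rfl fun a _ =>
      fibre_sum_fin j hrank hj (dataFin a) (sFin a) (hsFin a) f hf p q hp hq hN,
    Finset.sum_sub_distrib,
    sum_count_eq_card p.roots A
      (Finset.subset_union_left.trans Finset.subset_union_left),
    sum_count_eq_card q.roots A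
      (Finset.subset_union_right.trans Finset.subset_union_left)]
  ring

end Global

end Fermat.Agent.S24.H204
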