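import Mathlib

/-!
# S24 / FF3 (helper648), part N2: the norm is the product of a full set of embeddings

`E ⊆ F` finite separable, `σ x : F →+* L` (`x : X`) pairwise distinct ring homs into a field `L`
which all restrict to the same `φ : E →+* L`, and `|X| = [F : E]`.  Then
`∏ x, σ x f = φ (Algebra.norm E f)`.
-/

set_option autoImplicit false

noncomputable section

namespace Fermat.Agent.S24.H648FF3

open Polynomial

theorem prod_eq_map_norm {E F L X : Type*} [Field E] [Field F] [Field L] [Algebra E F]
    [FiniteDimensional E F] [Algebra.IsSeparable E F] [Fintype X]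
    (σ : X → (F →+* L)) (hσ : Function.Injective σ) (φ : E →+* L)
    (hφ : ∀ (x : X) (e : E), σ x (algebraMap E F e) = φ e)
    (hcard : Fintype.card X = Module.finrank E F) (f : F) :
    ∏ x, σ x f = φ (Algebra.norm E f) := by
  classical
  letI : Algebra E L := φ.toAlgebra
  let Ω := AlgebraicClosure L
  letI : Algebra E Ω := ((algebraMap L Ω).comp φ).toAlgebra
  let τ : X → (F →ₐ[E] Ω) := fun x =>
    { toRingHom := (algebraMap L Ω).comp (σ x)
      commutes' := fun e => by
        show (algebraMap L Ω) (σ x (algebraMap E F e)) = (algebraMap L Ω) (φ e)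
        rw [hφ] }
  have hτ_apply : ∀ x g, τ x g = algebraMap L Ω (σ x g) := fun _ _ => rfl
  have hτinj : Function.Injective τ := by
    intro x y hxy
    apply hσ
    ext g
    have := congrArg (fun ρ : F →ₐ[E] Ω => ρ g) hxy
    simp only [hτ_apply] at this
    exact (algebraMap L Ω).injective this
  have hcard' : Fintype.card X = Fintype.card (F →ₐ[E] Ω) := by
    rw [hcard, AlgHom.card]
  have hτbij : Function.Bijective τ :=
    (Fintype.bijective_iff_injective_and_card τ).mpr ⟨hτinj, hcard'⟩
  have h1 := Algebra.norm_eq_prod_embeddings E Ω f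
  have h2 : ∏ ρ : F →ₐ[E] Ω, ρ f = ∏ x, τ x f :=
    (Fintype.prod_bijective τ hτbij (fun x => τ x f) (fun ρ => ρ f) (fun _ => rfl)).symm
  rw [h2] at h1
  apply (algebraMap L Ω).injective
  rw [map_prod]
  simp only [hτ_apply] at h1
  rw [← h1]
  rfl

/-- Version with `Nat.card` and `Finite`. -/
theorem finprod_eq_map_norm {E F L X : Type*} [Field E] [Field F] [Field L] [Algebra E F]
    [FiniteDimensional E F] [Algebra.IsSeparable E F] [Finite X]
    (σ : X → (F →+* L)) (hσ : Function.Injective σ) (φ : E →+* L)
    (hφ : ∀ (x : X) (e : E), σ x (algebraMap E F e) = φ e)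
    (hcard : Nat.card X = Module.finrank E F) (f : F) :
    ∏ᶠ x, σ x f = φ (Algebra.norm E f) := by
  classical
  letI : Fintype X := Fintype.ofFinite X
  rw [finprod_eq_prod_of_fintype]
  exact prod_eq_map_norm σ hσ φ hφ (by rw [← Nat.card_eq_fintype_card, hcard]) f

end Fermat.Agent.S24.H648FF3
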