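import Mathlib

/-!
# S24 / FF3 (helper648), part N3: orders of rational functions of `j` along an embedding into
Laurent series, and the degree of the divisor of a rational function on `ℙ¹`.
-/

set_option autoImplicit false

noncomputable section

namespace Fermat.Agent.S24.H648FF3

open Polynomial

variable {K F A : Type*} [Field K] [Field F] [Algebra K F] [Field A]

section Order

variable (σ : F →+* LaurentSeries A) (ι : K →+* A)
  (hσ : ∀ c : K, σ (algebraMap K F c) = HahnSeries.C (ι c))

include hσ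

lemma orderTop_map_algebraMap {c : K} (hc : c ≠ 0) : (σ (algebraMap K F c)).orderTop = 0 := by
  rw [hσ]
  have : ι c ≠ 0 := (map_ne_zero ι).mpr hc
  rw [HahnSeries.C_apply, HahnSeries.orderTop_single this]
  rfl

lemma orderTop_map_algebraMap_nonneg (c : K) : 0 ≤ (σ (algebraMap K F c)).orderTop := by
  by_cases hc : c = 0
  · subst hc; simp
  · rw [orderTop_map_algebraMap σ ι hσ hc]

/-- Lemma B: polynomials in an element of non-negative order have non-negative order. -/
lemma orderTop_map_aeval_nonneg {t : F} (ht : 0 ≤ (σ t).orderTop) (q : K[X]) :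
    0 ≤ (σ (aeval t q)).orderTop := by
  induction q using Polynomial.induction_on' with
  | add p q hp hq =>
    rw [map_add, map_add]
    exact le_trans (le_min hp hq) HahnSeries.min_orderTop_le_orderTop_add
  | monomial n c =>
    rw [aeval_monomial, map_mul, map_pow, HahnSeries.orderTop_mul]
    have h1 := orderTop_map_algebraMap_nonneg σ ι hσ c
    have h2 : 0 ≤ ((σ t) ^ n).orderTop := by
      induction n with
      | zero => simp
      | succ n ih =>
        rw [pow_succ, HahnSeries.orderTop_mul]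
        exact add_nonneg ih ht
    exact add_nonneg h1 h2

/-- Lemma A: a polynomial with non-zero constant term in an element of positive order has
order `0`. -/
lemma orderTop_map_aeval_eq_zero {t : F} (ht : 0 < (σ t).orderTop) {p : K[X]}
    (hp : p.coeff 0 ≠ 0) : (σ (aeval t p)).orderTop = 0 := by
  have hdecomp : p = divX p * X + C (p.coeff 0) := (divX_mul_X_add p).symm
  have h1 : aeval t p = aeval t (divX p) * t + algebraMap K F (p.coeff 0) := by
    conv_lhs => rw [hdecomp]
    simp
  rw [h1, map_add, map_mul]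
  have h2 : (σ (algebraMap K F (p.coeff 0))).orderTop = 0 := orderTop_map_algebraMap σ ι hσ hp
  have h3 : 0 < (σ (aeval t (divX p)) * σ t).orderTop := by
    rw [HahnSeries.orderTop_mul]
    exact lt_of_lt_of_le ht (le_add_of_nonneg_left (orderTop_map_aeval_nonneg σ ι hσ ht.le _))
  rw [HahnSeries.orderTop_add_eq_right (by rw [h2]; exact h3), h2]

omit hσ in
lemma orderTop_pow' (x : LaurentSeries A) (n : ℕ) : (x ^ n).orderTop = n • x.orderTop := by
  induction n with
  | zero => simp
  | succ n ih => rw [pow_succ, HahnSeries.orderTop_mul, ih, succ_nsmul]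

omit hσ in
lemma orderTop_eq_of_order {x : LaurentSeries A} {m : ℤ} (hm : m ≠ 0) (h : x.order = m) :
    x.orderTop = (m : WithTop ℤ) := by
  have hx : x ≠ 0 := by
    rintro rfl
    rw [HahnSeries.order_zero] at h
    exact hm h.symm
  rw [← h, HahnSeries.order_eq_orderTop_of_ne_zero hx]

omit hσ in
lemma order_eq_of_orderTop {x : LaurentSeries A} {m : ℤ} (h : x.orderTop = (m : WithTop ℤ)) :
    x.order = m := by
  have hx : x ≠ 0 := by
    rintro rfl
    simp at h
  have := HahnSeries.order_eq_orderTop_of_ne_zero hx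
  rw [h] at this
  exact_mod_cast this

/-- **(N3a)** order of `σ (r(j))` at a finite point `a`: `m` times the root multiplicity. -/
theorem order_map_aeval_of_sub (j : F) (a : K) {m : ℤ} (hm : 0 < m)
    (hσm : (σ (j - algebraMap K F a)).order = m) {r : K[X]} (hr : r ≠ 0) :
    (σ (aeval j r)).orderTop = ((m * (rootMultiplicity a r : ℤ) : ℤ) : WithTop ℤ) := by
  set t : F := j - algebraMap K F a with ht
  have htop : (σ t).orderTop = (m : WithTop ℤ) := orderTop_eq_of_order hm.ne' hσm
  have htpos : 0 < (σ t).orderTop := by rw [htop]; exact_mod_cast hm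
  obtain ⟨r₁, hr₁, hnd⟩ := exists_eq_pow_rootMultiplicity_mul_and_not_dvd r hr a
  have hr₁a : r₁.eval a ≠ 0 := by
    intro h
    exact hnd (dvd_iff_isRoot.mpr h)
  have h1 : aeval j r = t ^ (rootMultiplicity a r) * aeval j r₁ := by
    conv_lhs => rw [hr₁]
    simp [ht]
  have h2 : aeval j r₁ = aeval t (r₁.comp (X + Polynomial.C a)) := by
    rw [aeval_comp]
    congr 1
    simp [ht]
  have h3 : (r₁.comp (X + Polynomial.C a)).coeff 0 ≠ 0 := by
    rw [coeff_zero_eq_eval_zero, eval_comp]
    simpa using hr₁a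
  have h4 := orderTop_map_aeval_eq_zero σ ι hσ htpos h3
  rw [h1, map_mul, map_pow, HahnSeries.orderTop_mul, orderTop_pow', h2, h4, add_zero, htop]
  rw [← WithTop.coe_nsmul]
  congr 1
  simp [mul_comm]

/-- **(N3b)** order of `σ (r(j))` at `∞`: `-m` times the degree. -/
theorem order_map_aeval_of_inv (j : F) {m : ℤ} (hm : 0 < m)
    (hσm : (σ j⁻¹).order = m) {r : K[X]} (hr : r ≠ 0) :
    (σ (aeval j r)).orderTop = ((-(m * (natDegree r : ℤ)) : ℤ) : WithTop ℤ) := by
  set t : F := j⁻¹ with ht
  have htop : (σ t).orderTop = (m : WithTop ℤ) := orderTop_eq_of_order hm.ne' hσm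
  have htpos : 0 < (σ t).orderTop := by rw [htop]; exact_mod_cast hm
  have ht0 : σ t ≠ 0 := by
    intro h
    rw [h] at htop
    simp at htop
  have hj0 : j ≠ 0 := by
    rintro rfl
    apply ht0
    simp [ht]
  have hσj : σ j * σ t = 1 := by
    rw [← map_mul, ht, mul_inv_cancel₀ hj0, map_one]
  have hjtop : (σ j).orderTop = ((-m : ℤ) : WithTop ℤ) := by
    have h := congrArg HahnSeries.orderTop hσj
    rw [HahnSeries.orderTop_mul, htop, HahnSeries.orderTop_one] at h
    have hne : (σ j).orderTop ≠ ⊤ := by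
      intro h'
      rw [h'] at h
      simp at h
    obtain ⟨n, hn⟩ := WithTop.ne_top_iff_exists.mp hne
    rw [← hn] at h ⊢
    have h' : n + m = 0 := by exact_mod_cast h
    congr 1
    omega
  letI : Invertible j := invertibleOfNonzero hj0
  have h1 : aeval j r = aeval t (reverse r) * j ^ (natDegree r) := by
    have := eval₂_reverse_mul_pow (algebraMap K F) j r
    rw [invOf_eq_inv] at this
    rw [aeval_def, aeval_def, ht, this]
  have h3 : (reverse r).coeff 0 ≠ 0 := by
    rw [coeff_zero_reverse]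
    exact leadingCoeff_ne_zero.mpr hr
  have h4 := orderTop_map_aeval_eq_zero σ ι hσ htpos h3
  rw [h1, map_mul, map_pow, HahnSeries.orderTop_mul, orderTop_pow', h4, zero_add, hjtop]
  rw [← WithTop.coe_nsmul]
  congr 1
  simp [mul_comm]

/-- `σ (r(j)) ≠ 0` for `r ≠ 0`, at a finite point. -/
lemma map_aeval_ne_zero_of_sub (j : F) (a : K) {m : ℤ} (hm : 0 < m)
    (hσm : (σ (j - algebraMap K F a)).order = m) {r : K[X]} (hr : r ≠ 0) :
    aeval j r ≠ 0 := by
  intro h
  have := order_map_aeval_of_sub σ ι hσ j a hm hσm hr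
  rw [h, map_zero, HahnSeries.orderTop_zero] at this
  exact WithTop.top_ne_coe this

lemma map_aeval_ne_zero_of_inv (j : F) {m : ℤ} (hm : 0 < m)
    (hσm : (σ j⁻¹).order = m) {r : K[X]} (hr : r ≠ 0) :
    aeval j r ≠ 0 := by
  intro h
  have := order_map_aeval_of_inv σ ι hσ j hm hσm hr
  rw [h, map_zero, HahnSeries.orderTop_zero] at this
  exact WithTop.top_ne_coe this

omit hσ in
lemma order_of_mul_eq {g x y : F} (hx : x ≠ 0) (hy : y ≠ 0) (h : g * x = y) {nx ny : ℤ}
    (hnx : (σ x).orderTop = (nx : WithTop ℤ)) (hny : (σ y).orderTop = (ny : WithTop ℤ)) :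
    (σ g).order = ny - nx := by
  have hg : g ≠ 0 := by
    rintro rfl
    rw [zero_mul] at h
    exact hy h.symm
  have h1 := congrArg (fun z => (σ z).orderTop) h
  simp only [map_mul, HahnSeries.orderTop_mul, hnx, hny] at h1
  have hσg : σ g ≠ 0 := (map_ne_zero σ).mpr hg
  rw [← HahnSeries.order_eq_orderTop_of_ne_zero hσg] at h1
  have h2 : (σ g).order + nx = ny := by exact_mod_cast h1
  omega

/-- **(N3a), quotient form.**  If `g · s(j) = r(j)` then `ord (σ g) = m · (mult_a r - mult_a s)`. -/
theorem order_map_ratFun_of_sub (j : F) (a : K) {m : ℤ} (hm : 0 < m)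
    (hσm : (σ (j - algebraMap K F a)).order = m) {r s : K[X]} (hr : r ≠ 0) (hs : s ≠ 0)
    {g : F} (hg : g * aeval j s = aeval j r) :
    (σ g).order = m * ((rootMultiplicity a r : ℤ) - rootMultiplicity a s) := by
  rw [order_of_mul_eq σ (map_aeval_ne_zero_of_sub σ ι hσ j a hm hσm hs)
    (map_aeval_ne_zero_of_sub σ ι hσ j a hm hσm hr) hg
    (order_map_aeval_of_sub σ ι hσ j a hm hσm hs) (order_map_aeval_of_sub σ ι hσ j a hm hσm hr)]
  ring

/-- **(N3b), quotient form.**  If `g · s(j) = r(j)` then `ord (σ g) = m · (deg s - deg r)`. -/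
theorem order_map_ratFun_of_inv (j : F) {m : ℤ} (hm : 0 < m)
    (hσm : (σ j⁻¹).order = m) {r s : K[X]} (hr : r ≠ 0) (hs : s ≠ 0)
    {g : F} (hg : g * aeval j s = aeval j r) :
    (σ g).order = m * ((natDegree s : ℤ) - natDegree r) := by
  rw [order_of_mul_eq σ (map_aeval_ne_zero_of_inv σ ι hσ j hm hσm hs)
    (map_aeval_ne_zero_of_inv σ ι hσ j hm hσm hr) hg
    (order_map_aeval_of_inv σ ι hσ j hm hσm hs) (order_map_aeval_of_inv σ ι hσ j hm hσm hr)]
  ring

end Order

section Sum

/-- Over an algebraically closed field the root multiplicities of `r ≠ 0` sum to its degree. -/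
theorem sum_rootMultiplicity_eq_natDegree [IsAlgClosed K] [DecidableEq K] {r : K[X]}
    (hr : r ≠ 0) (S : Finset K) (hS : ∀ a, r.IsRoot a → a ∈ S) :
    ∑ a ∈ S, rootMultiplicity a r = natDegree r := by
  have h1 : r.roots.card = natDegree r :=
    (IsAlgClosed.splits r).natDegree_eq_card_roots.symm
  have h2 : ∑ a ∈ S, rootMultiplicity a r = ∑ a ∈ S, r.roots.count a :=
    Finset.sum_congr rfl fun a _ => (count_roots r).symm
  rw [h2, ← h1]
  refine Multiset.sum_count_eq_card ?_
  intro a ha
  exact hS a ((mem_roots hr).mp ha)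

/-- **Degree of the divisor of a rational function on `ℙ¹` is zero.** -/
theorem sum_ordAt_add_ordInf_eq_zero [IsAlgClosed K] [DecidableEq K] {r s : K[X]}
    (hr : r ≠ 0) (hs : s ≠ 0) (S : Finset K) (hS : ∀ a, (r * s).IsRoot a → a ∈ S) :
    ∑ a ∈ S, ((rootMultiplicity a r : ℤ) - rootMultiplicity a s)
      + ((natDegree s : ℤ) - natDegree r) = 0 := by
  have h1 := sum_rootMultiplicity_eq_natDegree hr S fun a ha => hS a (by
    rw [IsRoot, eval_mul, ha, zero_mul])
  have h2 := sum_rootMultiplicity_eq_natDegree hs S fun a ha => hS a (by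
    rw [IsRoot, eval_mul, ha, mul_zero])
  rw [Finset.sum_sub_distrib]
  have h1' : (∑ a ∈ S, (rootMultiplicity a r : ℤ)) = natDegree r := by exact_mod_cast h1
  have h2' : (∑ a ∈ S, (rootMultiplicity a s : ℤ)) = natDegree s := by exact_mod_cast h2
  rw [h1', h2']
  ring

end Sum

end Fermat.Agent.S24.H648FF3
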